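/-
S25 / block Z: the functor of points of the Jacobian on affine schemes.  Owner: helper25.  FROZEN INTERFACE.
-/
import Fermat.Agent.S25.AlgSpec
import Fermat.Agent.S25.RepDefs

set_option autoImplicit false

universe u

open CategoryTheory CategoryTheory.Limits AlgebraicGeometry Opposite

namespace Fermat.Agent.S25

open _root_.Fermat.Agent.S25.Rep Triple

variable {k : Type u} [Field k]

/-- `J` represents `Pic⁰` on affine test schemes, in terms of triples. -/
structure PointsSpec (𝔠 : CurveCharts k) (J : Over (Spec (CommRingCat.of k))) where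
  /-- (a representative of) the pull-back of the universal bundle along a point -/
  cl : ∀ (A : Type u) [CommRing A] [Algebra k A], (aff k A ⟶ J) → Triple 𝔠 A
  pic0 : ∀ (A : Type u) [CommRing A] [Algebra k A] (g : aff k A ⟶ J), (cl A g).IsPic0
  inj : ∀ (A : Type u) [CommRing A] [Algebra k A] (g g' : aff k A ⟶ J),
    Nonempty (Iso (cl A g) (cl A g')) → g = g'
  surj : ∀ (A : Type u) [CommRing A] [Algebra k A] (T : Triple 𝔠 A), T.IsPic0 →
    ∃ g : aff k A ⟶ J, Nonempty (Iso (cl A g) T)
  nat : ∀ (A A' : Type u) [CommRing A] [Algebra k A] [CommRing A'] [Algebra k A']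
    (φ : A →ₐ[k] A') (g : aff k A ⟶ J), IsBC φ (cl A g) (cl A' (affMap φ ≫ g))

end Fermat.Agent.S25
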