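/-
S25 / block Z7: geometric connectedness of the Jacobian `J`.  Owner: helper49.

`J` receives a surjection from the geometrically integral affine family `Spec S.famRing`.
-/
import Fermat.Agent.S25.Z.PointsSpec

set_option autoImplicit false

universe u

open CategoryTheory CategoryTheory.Limits AlgebraicGeometry Opposite
open scoped TensorProduct

namespace Fermat.Agent.S25

open _root_.Fermat.Agent.S25.Rep Triple

namespace Connected

/-! ### General scheme theory -/

/-- The target of a surjection from a geometrically connected scheme is geometrically connected. -/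
theorem geometricallyConnected_of_surjective {X Y B : Scheme.{u}} (g : X ⟶ Y) (f : Y ⟶ B)
    [Surjective g] [GeometricallyConnected (g ≫ f)] : GeometricallyConnected f := by
  refine ⟨geometrically_iff_of_isClosedUnderIsomorphisms.mpr fun K _ y ↦ ?_⟩
  have h1 : ConnectedSpace ↥(pullback (g ≫ f) y) :=
    pullback_of_geometrically
      (GeometricallyConnected.geometrically_connectedSpace (f := g ≫ f)) K y
  have h2 : ConnectedSpace ↥(pullback g (pullback.fst f y)) := by
    rw [(pullbackRightPullbackFstIso f y g).hom.homeomorph.connectedSpace_iff]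
    exact h1
  exact (pullback.snd g (pullback.fst f y)).surjective.connectedSpace
    (pullback.snd g (pullback.fst f y)).continuous

/-- `Spec R → Spec k` is geometrically connected if all `K ⊗[k] R` are domains. -/
theorem geometricallyConnected_spec {k : Type u} [Field k] (R : Type u) [CommRing R] [Algebra k R]
    (h : ∀ (K : Type u) [Field K] [Algebra k K], IsDomain (K ⊗[k] R)) :
    GeometricallyConnected (Spec.map (CommRingCat.ofHom (algebraMap k R))) := by
  refine ⟨geometrically_iff_of_commRing_of_isClosedUnderIsomorphisms.mpr fun K _ _ ↦ ?_⟩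
  have hd : IsDomain (R ⊗[k] K) :=
    (Algebra.TensorProduct.comm k R K).toRingEquiv.toMulEquiv.isDomain (K ⊗[k] R)
  rw [(pullbackSpecIso k R K).hom.homeomorph.connectedSpace_iff]
  change ConnectedSpace (PrimeSpectrum (R ⊗[k] K))
  infer_instance

/-! ### Triples -/

variable {k : Type u} [Field k] {𝔠 : CurveCharts k}

/-- Base change data may be precomposed with an isomorphism of the source. -/
noncomputable def bcOfIso {A A' : Type u} [CommRing A] [Algebra k A] [CommRing A'] [Algebra k A']
    (φ : A →ₐ[k] A') {T₀ T : Triple 𝔠 A} {T' : Triple 𝔠 A'} (e : Iso T₀ T)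
    (b : BaseChange φ T T') : BaseChange φ T₀ T' where
  β₁ := b.β₁.comp e.e₁.toLinearMap
  β₂ := b.β₂.comp e.e₂.toLinearMap
  β₁₂ := b.β₁₂.comp e.e₁₂.toLinearMap
  comm₁ n := by
    simp only [LinearMap.comp_apply, LinearEquiv.coe_coe, e.comm₁, b.comm₁]
  comm₂ n := by
    simp only [LinearMap.comp_apply, LinearEquiv.coe_coe, e.comm₂, b.comm₂]
  isBC₁ Q _ _ f := by
    obtain ⟨g, hg, hu⟩ := b.isBC₁ Q (f.comp e.e₁.symm.toLinearMap)
    refine ⟨g, fun n => ?_, fun g' hg' => hu g' fun n => ?_⟩
    · have h := hg (e.e₁ n)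
      change g (b.β₁ (e.e₁ n)) = f (e.e₁.symm (e.e₁ n)) at h
      rw [e.e₁.symm_apply_apply] at h
      exact h
    · have h := hg' (e.e₁.symm n)
      change g' (b.β₁ (e.e₁ (e.e₁.symm n))) = f (e.e₁.symm n) at h
      rw [e.e₁.apply_symm_apply] at h
      exact h
  isBC₂ Q _ _ f := by
    obtain ⟨g, hg, hu⟩ := b.isBC₂ Q (f.comp e.e₂.symm.toLinearMap)
    refine ⟨g, fun n => ?_, fun g' hg' => hu g' fun n => ?_⟩
    · have h := hg (e.e₂ n)
      change g (b.β₂ (e.e₂ n)) = f (e.e₂.symm (e.e₂ n)) at h
      rw [e.e₂.symm_apply_apply] at h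
      exact h
    · have h := hg' (e.e₂.symm n)
      change g' (b.β₂ (e.e₂ (e.e₂.symm n))) = f (e.e₂.symm n) at h
      rw [e.e₂.apply_symm_apply] at h
      exact h
  isBC₁₂ Q _ _ f := by
    obtain ⟨g, hg, hu⟩ := b.isBC₁₂ Q (f.comp e.e₁₂.symm.toLinearMap)
    refine ⟨g, fun n => ?_, fun g' hg' => hu g' fun n => ?_⟩
    · have h := hg (e.e₁₂ n)
      change g (b.β₁₂ (e.e₁₂ n)) = f (e.e₁₂.symm (e.e₁₂ n)) at h
      rw [e.e₁₂.symm_apply_apply] at h
      exact h
    · have h := hg' (e.e₁₂.symm n)
      change g' (b.β₁₂ (e.e₁₂ (e.e₁₂.symm n))) = f (e.e₁₂.symm n) at h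
      rw [e.e₁₂.apply_symm_apply] at h
      exact h

/-- A scheme morphism `Spec A ⟶ T` makes `A` a `k`-algebra. -/
theorem exists_alg (T : Over (Spec (CommRingCat.of k))) (A : Type u) [CommRing A]
    (f : Spec (CommRingCat.of A) ⟶ T.left) :
    ∃ (_ : Algebra k A) (t : aff k A ⟶ T), t.left = f := by
  set ρ : CommRingCat.of k ⟶ CommRingCat.of A := Spec.preimage (f ≫ T.hom) with hρ
  have hρ' : Spec.map ρ = f ≫ T.hom := Spec.map_preimage _
  let _ : Algebra k A := ρ.hom.toAlgebra
  refine ⟨inferInstance, Over.homMk f ?_, rfl⟩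
  dsimp
  rw [← hρ']
  rfl

attribute [local instance] AlgSpec.famCommRing AlgSpec.famAlg

/-- The classifying morphism of the family `S.fam` is surjective. -/
theorem surjective_fam (S : AlgSpec 𝔠) {J : Over (Spec (CommRingCat.of k))}
    (pts : PointsSpec 𝔠 J) (g : aff k S.famRing ⟶ J) (e : Iso (pts.cl S.famRing g) S.fam) :
    Surjective g.left := by
  refine ⟨fun z => ?_⟩
  let f : Spec (CommRingCat.of (AlgebraicClosure (J.left.residueField z))) ⟶ J.left :=
    Spec.map (CommRingCat.ofHom (algebraMap (J.left.residueField z)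
      (AlgebraicClosure (J.left.residueField z)))) ≫ J.left.fromSpecResidueField z
  obtain ⟨alg, t, ht⟩ := exists_alg J (AlgebraicClosure (J.left.residueField z)) f
  obtain ⟨φ, ⟨b⟩⟩ := S.fam_surj _ (pts.cl _ t) (pts.pic0 _ t)
  have h1 := pts.nat S.famRing _ φ g
  have h2 : IsBC φ (pts.cl S.famRing g) (pts.cl _ t) := ⟨bcOfIso φ e b⟩
  have h3 : affMap φ ≫ g = t := pts.inj _ _ _ (S.bc_unique _ _ φ _ _ _ h1 h2)
  let pt : PrimeSpectrum (AlgebraicClosure (J.left.residueField z)) := ⊥
  refine ⟨(affMap φ).left pt, ?_⟩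
  calc g.left ((affMap φ).left pt) = (affMap φ ≫ g).left pt := rfl
    _ = t.left pt := by rw [h3]
    _ = f pt := by rw [ht]
    _ = z := Scheme.fromSpecResidueField_apply z _

end Connected

section Properties

variable {k : Type u} [Field k]

variable {𝔠 : CurveCharts k} (S : AlgSpec 𝔠) {J : Over (Spec (CommRingCat.of k))}
  (pts : PointsSpec 𝔠 J)
  (j : ∀ i : S.charts.ι, aff k (S.charts.R i) ⟶ J) (hj : ∀ i, IsOpenImmersion (j i).left)
  (hcov : ∀ z : J.left, ∃ i, z ∈ Set.range (j i).left.base)

attribute [local instance] AlgSpec.famCommRing AlgSpec.famAlg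

set_option linter.unusedSectionVars false in
include pts hj hcov in
theorem geometricallyConnected_of_spec : GeometricallyConnected J.hom := by
  obtain ⟨g, ⟨e⟩⟩ := pts.surj S.famRing S.fam S.fam_pic0
  have h1 : Surjective g.left := Connected.surjective_fam S pts g e
  have h2 : GeometricallyConnected (g.left ≫ J.hom) := by
    rw [Over.w g]
    exact Connected.geometricallyConnected_spec S.famRing S.fam_geomIntegral
  exact Connected.geometricallyConnected_of_surjective g.left J.hom

end Properties

end Fermat.Agent.S25
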