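/-
S25 / block Z2: algebraic equivalence to zero = degree zero.  Owner: helper285.
-/
import Fermat.Agent.S25.Z.AlgEquiv.Forward
import Fermat.Agent.S25.Z.AlgEquiv.Backward

set_option autoImplicit false

universe u

open CategoryTheory CategoryTheory.Limits AlgebraicGeometry AlgebraicGeometry.RelPicard
  NeronModelInfra GoodReductionJacobian

namespace Fermat.Agent.S25

variable {k : Type u} [Field k] {C : Scheme.{u}} {c : C ⟶ Spec (CommRingCat.of k)}
  {ε : SchemeHomOver (𝟙 (Spec (CommRingCat.of k))) c}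

theorem fibrewiseAlgEquivZero_iff_deg0 [IsAlgClosed k] (G : GeomCharts c ε) (D : Dictionary G)
    (S : AlgSpec G.𝔠) (A : Type u) [CommRing A] [Algebra k A]
    (M : RigidifiedLineBundle c ε (sp k A)) :
    FibrewiseAlgEquivZero M ↔ (D.sec A M.L).Deg0 :=
  ⟨Z2.deg0_of_fibrewiseAlgEquivZero D S A M, Z2.fibrewiseAlgEquivZero_of_deg0 D S A M⟩

end Fermat.Agent.S25
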