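/-
S25 / block Z1: Zariski-descent properties of the sub-Picard functor.
Owner: helper72.
-/
import Fermat.Agent.S25.PicFunctor
import Fermat.Agent.S25.RepDefs

set_option autoImplicit false

universe u

open CategoryTheory CategoryTheory.Limits AlgebraicGeometry AlgebraicGeometry.RelPicard
  NeronModelInfra GoodReductionJacobian Opposite

namespace Fermat.Agent.S25

open _root_.Fermat.Agent.S25.Rep

variable {k : Type u} [Field k] {C : Scheme.{u}} {c : C ⟶ Spec (CommRingCat.of k)}
  {ε : SchemeHomOver (𝟙 (Spec (CommRingCat.of k))) c}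

/-- The value of `picFunctor P` on a morphism, evaluated at the class of a bundle. -/
lemma picFunctor_map_mk_val (P : SubPicCondition c ε) {X X' : Over (Spec (CommRingCat.of k))}
    (φ : X' ⟶ X) (M : RigidifiedLineBundle c ε X.hom) (hM : classMem P X.hom (Quotient.mk _ M)) :
    ((picFunctor P).map φ.op ⟨Quotient.mk _ M, hM⟩).1 =
      Quotient.mk _ (M.pullbackAlong (⟨φ.left, Over.w φ⟩ : SchemeHomOver X'.hom X.hom)) :=
  rfl

theorem isSep_picFunctor (P : SubPicCondition c ε) (hsep : SepSpec c ε) :
    IsSep (picFunctor P) := by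
  intro T J U hU a b hab
  obtain ⟨a, ha⟩ := a
  obtain ⟨b, hb⟩ := b
  induction a using Quotient.ind with
  | _ M =>
  induction b using Quotient.ind with
  | _ M' =>
  apply Subtype.ext
  apply Quotient.sound
  refine hsep T.hom M M' U hU (fun j => ?_)
  have h := congrArg Subtype.val (hab j)
  rw [picFunctor_map_mk_val, picFunctor_map_mk_val] at h
  exact Quotient.exact h

/-- If the pullback of `M` along `ψ` is fibrewise algebraically equivalent to zero, then so is the
fibre of `M` at every geometric point which factors through `ψ`. -/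
theorem isAlgEquivZero_of_pullbackAlong {T T' : Scheme.{u}} {t : T ⟶ Spec (CommRingCat.of k)}
    {t' : T' ⟶ Spec (CommRingCat.of k)} (ψ : SchemeHomOver t' t) {M : RigidifiedLineBundle c ε t}
    (hM : FibrewiseAlgEquivZero (M.pullbackAlong ψ)) (K : Type u) [Field K] [IsAlgClosed K]
    (s' : Spec (CommRingCat.of K) ⟶ T') :
    IsAlgEquivZero (fibreAt c t (s' ≫ ψ.1))
      ((Scheme.Modules.pullback (pullback.fst (pullback.snd c t) (s' ≫ ψ.1))).obj M.L) := by
  have h1 : (pullback.fst (pullback.snd c t) (s' ≫ ψ.1) ≫ pullback.fst c t) ≫ c =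
      (pullback.snd (pullback.snd c t) (s' ≫ ψ.1) ≫ s') ≫ t' := by
    rw [Category.assoc, pullback.condition, ← Category.assoc, pullback.condition]
    simp only [Category.assoc, ψ.2]
  let e : Limits.pullback (pullback.snd c t) (s' ≫ ψ.1) ⟶ Limits.pullback (pullback.snd c t') s' :=
    pullback.lift (pullback.lift (pullback.fst _ _ ≫ pullback.fst c t) (pullback.snd _ _ ≫ s') h1)
      (pullback.snd _ _) (by rw [pullback.lift_snd])
  have he : e ≫ fibreAt c t' s' = fibreAt c t (s' ≫ ψ.1) := by
    simp only [e, fibreAt, pullback.lift_snd]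
  have hfst : e ≫ pullback.fst (pullback.snd c t') s' ≫ baseChangeSnd c ψ =
      pullback.fst (pullback.snd c t) (s' ≫ ψ.1) := by
    apply pullback.hom_ext
    · simp only [e, baseChangeSnd, Category.assoc, pullback.lift_fst, pullback.lift_fst_assoc,
        Category.comp_id]
    · simp only [e, baseChangeSnd, Category.assoc, pullback.lift_snd, pullback.lift_fst_assoc,
        pullback.lift_snd_assoc]
      rw [pullback.condition]
  refine IsAlgEquivZero.of_iso ?_ ((hM K s').pullback e he)
  exact (Scheme.Modules.pullback e).mapIso ((Scheme.Modules.pullbackComp _ _).app M.L) ≪≫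
    (Scheme.Modules.pullbackComp _ _).app M.L ≪≫
    (Scheme.Modules.pullbackCongr hfst).app M.L

/-- A morphism from the spectrum of a field factors through any open containing the image of
the point. -/
lemma exists_factor_of_cover {T : Scheme.{u}} (U V : T.Opens) (hUV : U ⊔ V = ⊤)
    (K : Type u) [Field K] (s : Spec (CommRingCat.of K) ⟶ T) :
    (∃ s' : Spec (CommRingCat.of K) ⟶ U.toScheme, s' ≫ U.ι = s) ∨
      (∃ s' : Spec (CommRingCat.of K) ⟶ V.toScheme, s' ≫ V.ι = s) := by
  have key : ∀ (W : T.Opens) (x₀ : Spec (CommRingCat.of K)), s.base x₀ ∈ W →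
      ∃ s' : Spec (CommRingCat.of K) ⟶ W.toScheme, s' ≫ W.ι = s := by
    intro W x₀ hx₀
    refine ⟨IsOpenImmersion.lift W.ι s ?_, IsOpenImmersion.lift_fac _ _ _⟩
    rintro _ ⟨x, rfl⟩
    rw [Scheme.Opens.range_ι]
    have : x = x₀ := by
      have : Subsingleton (PrimeSpectrum K) := inferInstance
      exact this.elim x x₀
    rw [this]
    exact hx₀
  let x₀ : Spec (CommRingCat.of K) := (default : PrimeSpectrum K)
  have hx : s.base x₀ ∈ U ⊔ V := by rw [hUV]; trivial
  rcases hx with hx | hx
  · exact Or.inl (key U x₀ hx)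
  · exact Or.inr (key V x₀ hx)

/-- Fibrewise algebraic equivalence to zero is Zariski-local on the base. -/
theorem fibrewiseAlgEquivZero_of_cover {T : Scheme.{u}} (t : T ⟶ Spec (CommRingCat.of k))
    (U V : T.Opens) (hUV : U ⊔ V = ⊤) (M : RigidifiedLineBundle c ε t)
    (hU : FibrewiseAlgEquivZero (M.pullbackAlong (opensHom t U)))
    (hV : FibrewiseAlgEquivZero (M.pullbackAlong (opensHom t V))) :
    FibrewiseAlgEquivZero M := by
  intro K _ _ s
  rcases exists_factor_of_cover U V hUV K s with ⟨s', rfl⟩ | ⟨s', rfl⟩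
  · exact isAlgEquivZero_of_pullbackAlong (opensHom t U) hU K s'
  · exact isAlgEquivZero_of_pullbackAlong (opensHom t V) hV K s'

theorem hasGlue2_picFunctor (hglue : Glue2Spec c ε) :
    HasGlue2 (picFunctor (algEquivZeroCut c ε)) := by
  intro T U V hUV a b hab
  obtain ⟨a, ha⟩ := a
  obtain ⟨b, hb⟩ := b
  induction a using Quotient.ind with
  | _ MU =>
  induction b using Quotient.ind with
  | _ MV =>
  have h := congrArg Subtype.val hab
  rw [picFunctor_map_mk_val, picFunctor_map_mk_val] at h
  obtain ⟨M, hMU, hMV⟩ := hglue T.hom U V hUV MU MV (Quotient.exact h)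
  have hM : FibrewiseAlgEquivZero M :=
    fibrewiseAlgEquivZero_of_cover T.hom U V hUV M
      (FibrewiseAlgEquivZero.congr ⟨hMU.some.symm⟩ ha)
      (FibrewiseAlgEquivZero.congr ⟨hMV.some.symm⟩ hb)
  exact ⟨⟨Quotient.mk _ M, hM⟩, Subtype.ext (Quotient.sound hMU), Subtype.ext (Quotient.sound hMV)⟩

end Fermat.Agent.S25
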