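/-
S25 / block Z3: the few formal facts on isomorphisms of triples and base change which the
assembly of the functor of points needs.  Owner: helper280.  (Self-contained, names in `Z3`.)
-/
import Fermat.Agent.S25.AlgSpec

set_option autoImplicit false

universe u

namespace Fermat.Agent.S25.Z3

open _root_.Fermat.Agent.S25.Triple

section Semilinear

variable {R S : Type u} [CommRing R] [CommRing S] {f : R →+* S}
  {M M₀ N N' : Type u} [AddCommGroup M] [Module R M] [AddCommGroup M₀] [Module R M₀]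
  [AddCommGroup N] [Module S N] [AddCommGroup N'] [Module S N']

/-- postcomposition of a semilinear map with a linear equivalence -/
def postEquiv (β : M →ₛₗ[f] N) (e : N ≃ₗ[S] N') : M →ₛₗ[f] N' where
  toFun m := e (β m)
  map_add' a b := by rw [map_add, map_add]
  map_smul' r a := by rw [β.map_smulₛₗ, map_smul]

/-- precomposition of a semilinear map with a linear equivalence -/
def preEquiv (β : M →ₛₗ[f] N) (e : M₀ ≃ₗ[R] M) : M₀ →ₛₗ[f] N where
  toFun m := β (e m)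
  map_add' a b := by rw [map_add, map_add]
  map_smul' r a := by rw [map_smul, β.map_smulₛₗ]

@[simp] lemma postEquiv_apply (β : M →ₛₗ[f] N) (e : N ≃ₗ[S] N') (m : M) :
    postEquiv β e m = e (β m) := rfl

@[simp] lemma preEquiv_apply (β : M →ₛₗ[f] N) (e : M₀ ≃ₗ[R] M) (m : M₀) :
    preEquiv β e m = β (e m) := rfl

theorem up_postEquiv (β : M →ₛₗ[f] N) (e : N ≃ₗ[S] N')
    (h : ∀ (Q : Type u) [AddCommGroup Q] [Module S Q] (g : M →ₛₗ[f] Q),
      ∃! l : N →ₗ[S] Q, ∀ n, l (β n) = g n)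
    (Q : Type u) [AddCommGroup Q] [Module S Q] (g : M →ₛₗ[f] Q) :
    ∃! l : N' →ₗ[S] Q, ∀ n, l (postEquiv β e n) = g n := by
  obtain ⟨l, hl, hu⟩ := h Q g
  refine ⟨l.comp (e.symm : N' →ₗ[S] N), fun n => ?_, fun l' hl' => ?_⟩
  · rw [postEquiv_apply, LinearMap.comp_apply, LinearEquiv.coe_coe, LinearEquiv.symm_apply_apply, hl]
  · have := hu (l'.comp (e : N →ₗ[S] N')) (fun n => hl' n)
    rw [← this]
    ext n
    simp

theorem up_preEquiv (β : M →ₛₗ[f] N) (e : M₀ ≃ₗ[R] M)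
    (h : ∀ (Q : Type u) [AddCommGroup Q] [Module S Q] (g : M →ₛₗ[f] Q),
      ∃! l : N →ₗ[S] Q, ∀ n, l (β n) = g n)
    (Q : Type u) [AddCommGroup Q] [Module S Q] (g : M₀ →ₛₗ[f] Q) :
    ∃! l : N →ₗ[S] Q, ∀ n, l (preEquiv β e n) = g n := by
  obtain ⟨l, hl, hu⟩ := h Q (preEquiv g e.symm)
  refine ⟨l, fun n => ?_, fun l' hl' => hu l' fun n => ?_⟩
  · rw [preEquiv_apply, hl, preEquiv_apply, LinearEquiv.symm_apply_apply]
  · have := hl' (e.symm n)
    rwa [preEquiv_apply, LinearEquiv.apply_symm_apply] at this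

end Semilinear

variable {k : Type u} [Field k] {𝔠 : CurveCharts k}
  {A A' : Type u} [CommRing A] [Algebra k A] [CommRing A'] [Algebra k A']

/-- inverse of an isomorphism of triples -/
def isoSymm {T T' : Triple 𝔠 A} (e : Iso T T') : Iso T' T where
  e₁ := e.e₁.symm
  e₂ := e.e₂.symm
  e₁₂ := e.e₁₂.symm
  comm₁ n := by
    apply e.e₁₂.injective
    rw [LinearEquiv.apply_symm_apply, e.comm₁, LinearEquiv.apply_symm_apply]
  comm₂ n := by
    apply e.e₁₂.injective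
    rw [LinearEquiv.apply_symm_apply, e.comm₂, LinearEquiv.apply_symm_apply]

/-- composition of isomorphisms of triples -/
def isoTrans {T T' T'' : Triple 𝔠 A} (e : Iso T T') (e' : Iso T' T'') : Iso T T'' where
  e₁ := e.e₁.trans e'.e₁
  e₂ := e.e₂.trans e'.e₂
  e₁₂ := e.e₁₂.trans e'.e₁₂
  comm₁ n := by
    simp only [LinearEquiv.trans_apply, e.comm₁, e'.comm₁]
  comm₂ n := by
    simp only [LinearEquiv.trans_apply, e.comm₂, e'.comm₂]

/-- a base change followed by an isomorphism is a base change -/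
noncomputable def bcOfIso {φ : A →ₐ[k] A'} {T : Triple 𝔠 A} {T' T'' : Triple 𝔠 A'}
    (D : BaseChange φ T T') (e : Iso T' T'') : BaseChange φ T T'' where
  β₁ := postEquiv D.β₁ e.e₁
  β₂ := postEquiv D.β₂ e.e₂
  β₁₂ := postEquiv D.β₁₂ e.e₁₂
  comm₁ n := by
    simp only [postEquiv_apply, D.comm₁, e.comm₁]
  comm₂ n := by
    simp only [postEquiv_apply, D.comm₂, e.comm₂]
  isBC₁ := up_postEquiv D.β₁ e.e₁ D.isBC₁
  isBC₂ := up_postEquiv D.β₂ e.e₂ D.isBC₂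
  isBC₁₂ := up_postEquiv D.β₁₂ e.e₁₂ D.isBC₁₂

/-- an isomorphism followed by a base change is a base change -/
noncomputable def bcOfIsoLeft {φ : A →ₐ[k] A'} {T₀ T : Triple 𝔠 A} {T' : Triple 𝔠 A'}
    (D : BaseChange φ T T') (e : Iso T₀ T) : BaseChange φ T₀ T' where
  β₁ := preEquiv D.β₁ e.e₁
  β₂ := preEquiv D.β₂ e.e₂
  β₁₂ := preEquiv D.β₁₂ e.e₁₂
  comm₁ n := by
    simp only [preEquiv_apply, D.comm₁, e.comm₁]
  comm₂ n := by
    simp only [preEquiv_apply, D.comm₂, e.comm₂]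
  isBC₁ := up_preEquiv D.β₁ e.e₁ D.isBC₁
  isBC₂ := up_preEquiv D.β₂ e.e₂ D.isBC₂
  isBC₁₂ := up_preEquiv D.β₁₂ e.e₁₂ D.isBC₁₂

theorem isRigid_of_iso {T T' : Triple 𝔠 A} (e : Iso T T') (h : T.IsRigid) : T'.IsRigid := by
  obtain ⟨n, hn⟩ := h
  refine ⟨e.e₂ n, fun m' => ?_⟩
  obtain ⟨r, hr⟩ := hn (e.e₂.symm m')
  refine ⟨r, ?_⟩
  have h1 : e.e₂ (e.e₂.symm m' - r • n) ∈
      Submodule.map (e.e₂ : T.N₂ →ₗ[𝔠.R₂ A] T'.N₂)
        ((RingHom.ker (𝔠.ev₀ A).toRingHom) • (⊤ : Submodule (𝔠.R₂ A) T.N₂)) :=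
    Submodule.mem_map_of_mem hr
  rw [Submodule.map_smul''] at h1
  have h2 := Submodule.smul_mono (le_refl (RingHom.ker (𝔠.ev₀ A).toRingHom))
    (le_top : Submodule.map (e.e₂ : T.N₂ →ₗ[𝔠.R₂ A] T'.N₂) ⊤ ≤ ⊤) h1
  simpa using h2

theorem deg0_of_iso {T T' : Triple 𝔠 A} (e : Iso T T') (h : T.Deg0) : T'.Deg0 :=
  fun K _ _ φ TK ⟨D⟩ => h K φ TK ⟨bcOfIsoLeft D e⟩

end Fermat.Agent.S25.Z3
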