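/-
S25 / block Z3: the affine atlas of the Picard functor and the functor of points of a representing
object, with the neighbouring nodes (Z2, R1+R2) as explicit hypotheses.   Owner: helper280.
-/
import Fermat.Agent.S25.PicFunctor
import Fermat.Agent.S25.Z.PointsSpec
import Fermat.Agent.S25.Z.TripleIso

set_option autoImplicit false

universe u

open CategoryTheory CategoryTheory.Limits AlgebraicGeometry AlgebraicGeometry.RelPicard
  NeronModelInfra GoodReductionJacobian Opposite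
open scoped TensorProduct

namespace Fermat.Agent.S25.Z3

open _root_.Fermat.Agent.S25.Rep _root_.Fermat.Agent.S25.Triple

variable {k : Type u} [Field k] {C : Scheme.{u}} {c : C ⟶ Spec (CommRingCat.of k)}
  {ε : SchemeHomOver (𝟙 (Spec (CommRingCat.of k))) c}

/-- Node Z2 as a hypothesis: algebraic equivalence to zero is degree zero. -/
def Z2Spec (G : GeomCharts c ε) (D : Dictionary G) : Prop :=
  ∀ (A : Type u) [CommRing A] [Algebra k A] (M : RigidifiedLineBundle c ε (sp k A)),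
    FibrewiseAlgEquivZero M ↔ (D.sec A M.L).Deg0

variable (c ε) in
/-- the functor to be represented -/
noncomputable abbrev pic0 : (Over (Spec (CommRingCat.of k)))ᵒᵖ ⥤ Type (u + 1) :=
  picFunctor (algEquivZeroCut c ε)

section Points

variable {A A' : Type u} [CommRing A] [Algebra k A] [CommRing A'] [Algebra k A']

/-- the point of the functor given by a rigidified line bundle over an affine base -/
noncomputable def mkPt (M : RigidifiedLineBundle c ε (sp k A)) (hM : FibrewiseAlgEquivZero M) :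
    (pic0 c ε).obj (op (aff k A)) :=
  ⟨Quotient.mk _ M, hM⟩

theorem exists_mkPt (η : (pic0 c ε).obj (op (aff k A))) :
    ∃ (M : RigidifiedLineBundle c ε (sp k A)) (hM : FibrewiseAlgEquivZero M), η = mkPt M hM := by
  obtain ⟨x, hx⟩ := η
  induction x using Quotient.ind with
  | _ M => exact ⟨M, hx, rfl⟩

theorem mkPt_eq_iff (M M' : RigidifiedLineBundle c ε (sp k A)) (hM : FibrewiseAlgEquivZero M)
    (hM' : FibrewiseAlgEquivZero M') : mkPt M hM = mkPt M' hM' ↔ Nonempty (M.L ≅ M'.L) := by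
  constructor
  · intro h
    exact Quotient.exact (congrArg Subtype.val h)
  · intro h
    exact Subtype.ext (Quotient.sound h)

theorem map_mkPt (φ : A →ₐ[k] A') (M : RigidifiedLineBundle c ε (sp k A))
    (hM : FibrewiseAlgEquivZero M) :
    (pic0 c ε).map (affMap φ).op (mkPt M hM) =
      mkPt (M.pullbackAlong (affHom φ)) (hM.pullback (affHom φ)) := rfl

end Points

section Dictionary

variable {G : GeomCharts c ε} (D : Dictionary G) (S : AlgSpec G.𝔠)
  {A A' : Type u} [CommRing A] [Algebra k A] [CommRing A'] [Algebra k A']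

include D in
theorem sec_isPic0 (hZ2 : Z2Spec G D) (M : RigidifiedLineBundle c ε (sp k A))
    (hM : FibrewiseAlgEquivZero M) : (D.sec A M.L).IsPic0 where
  inv := D.inv A M.L M.isInvertible
  rigid := (D.rigid_iff A M.L M.isInvertible).1 M.rigidified
  deg0 := (hZ2 A M).1 hM

theorem exists_of_isPic0 (hZ2 : Z2Spec G D) (T : Triple G.𝔠 A) (hT : T.IsPic0) :
    ∃ (M : RigidifiedLineBundle c ε (sp k A)) (_ : FibrewiseAlgEquivZero M),
      Nonempty (Iso (D.sec A M.L) T) := by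
  obtain ⟨L, hL, ⟨e⟩⟩ := D.ess_surj A T hT.inv
  let M : RigidifiedLineBundle c ε (sp k A) :=
    ⟨L, hL, (D.rigid_iff A L hL).2 (isRigid_of_iso (isoSymm e) hT.rigid)⟩
  exact ⟨M, (hZ2 A M).2 (deg0_of_iso (isoSymm e) hT.deg0), ⟨e⟩⟩

include S in
theorem isBC_iff (φ : A →ₐ[k] A') (M : RigidifiedLineBundle c ε (sp k A))
    (M' : RigidifiedLineBundle c ε (sp k A')) :
    IsBC φ (D.sec A M.L) (D.sec A' M'.L) ↔ Nonempty ((M.pullbackAlong (affHom φ)).L ≅ M'.L) := by
  have h0 : IsBC φ (D.sec A M.L) (D.sec A' (M.pullbackAlong (affHom φ)).L) :=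
    D.bc A A' φ M.L M.isInvertible
  constructor
  · intro h
    exact (D.iso_iff A' _ _ (M.pullbackAlong (affHom φ)).isInvertible M'.isInvertible).2
      (S.bc_unique A A' φ _ _ _ h0 h)
  · intro h
    obtain ⟨e⟩ := (D.iso_iff A' _ _ (M.pullbackAlong (affHom φ)).isInvertible M'.isInvertible).1 h
    obtain ⟨B⟩ := h0
    exact ⟨bcOfIso B e⟩

include S in
/-- The key translation: equality of points of the functor is the base change relation. -/
theorem map_mkPt_eq_iff (φ : A →ₐ[k] A') (M : RigidifiedLineBundle c ε (sp k A))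
    (hM : FibrewiseAlgEquivZero M) (M' : RigidifiedLineBundle c ε (sp k A'))
    (hM' : FibrewiseAlgEquivZero M') :
    (pic0 c ε).map (affMap φ).op (mkPt M hM) = mkPt M' hM' ↔
      IsBC φ (D.sec A M.L) (D.sec A' M'.L) := by
  rw [map_mkPt, mkPt_eq_iff, isBC_iff D S]

/-- a rigidified line bundle realising a `Pic⁰` triple -/
noncomputable def bundleOf (hZ2 : Z2Spec G D) (T : Triple G.𝔠 A) (hT : T.IsPic0) :
    RigidifiedLineBundle c ε (sp k A) := (exists_of_isPic0 D hZ2 T hT).choose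

theorem bundleOf_mem (hZ2 : Z2Spec G D) (T : Triple G.𝔠 A) (hT : T.IsPic0) :
    FibrewiseAlgEquivZero (bundleOf D hZ2 T hT) := (exists_of_isPic0 D hZ2 T hT).choose_spec.choose

theorem bundleOf_iso (hZ2 : Z2Spec G D) (T : Triple G.𝔠 A) (hT : T.IsPic0) :
    Nonempty (Iso (D.sec A (bundleOf D hZ2 T hT).L) T) :=
  (exists_of_isPic0 D hZ2 T hT).choose_spec.choose_spec

/-- the point of the functor attached to a `Pic⁰` triple -/
noncomputable def ptOf (hZ2 : Z2Spec G D) (T : Triple G.𝔠 A) (hT : T.IsPic0) :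
    (pic0 c ε).obj (op (aff k A)) := mkPt (bundleOf D hZ2 T hT) (bundleOf_mem D hZ2 T hT)

include S in
/-- pull-back of the point of `T` along `φ` is the point of `M'` iff `sec M'` is the base change
of `T`. -/
theorem map_ptOf_eq_iff (hZ2 : Z2Spec G D) (φ : A →ₐ[k] A') (T : Triple G.𝔠 A) (hT : T.IsPic0)
    (M' : RigidifiedLineBundle c ε (sp k A')) (hM' : FibrewiseAlgEquivZero M') :
    (pic0 c ε).map (affMap φ).op (ptOf D hZ2 T hT) = mkPt M' hM' ↔
      IsBC φ T (D.sec A' M'.L) := by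
  obtain ⟨e⟩ := bundleOf_iso D hZ2 T hT
  rw [ptOf, map_mkPt_eq_iff D S]
  exact ⟨fun ⟨B⟩ => ⟨bcOfIsoLeft B (isoSymm e)⟩, fun ⟨B⟩ => ⟨bcOfIsoLeft B e⟩⟩

end Dictionary

section Atlas

variable {G : GeomCharts c ε} (D : Dictionary G) (S : AlgSpec G.𝔠)

/-- The affine atlas of the Picard functor obtained from the algebraic charts. -/
noncomputable def affAtlas (hZ2 : Z2Spec G D) : AffAtlas (pic0 c ε) where
  ι := S.charts.ι
  fin := S.charts.fin
  R := S.charts.R
  ξ i := ptOf D hZ2 (S.charts.U i) (S.charts.pic0 i)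
  mono i A _ _ φ φ' h := by
    obtain ⟨M', hM', h'⟩ := exists_mkPt
      ((pic0 c ε).map (affMap φ').op (ptOf D hZ2 (S.charts.U i) (S.charts.pic0 i)))
    rw [h'] at h
    exact S.charts.mono i A φ φ' _ ((map_ptOf_eq_iff D S hZ2 φ _ _ M' hM').1 h)
      ((map_ptOf_eq_iff D S hZ2 φ' _ _ M' hM').1 h')
  isOpen i A _ _ η := by
    obtain ⟨M, hM, rfl⟩ := exists_mkPt η
    obtain ⟨V, hV, h⟩ := S.charts.isOpen i A (D.sec A M.L) (sec_isPic0 D hZ2 M hM)
    refine ⟨V, hV, fun A' _ _ ψ => ?_⟩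
    rw [h A' ψ (D.sec A' (M.pullbackAlong (affHom ψ)).L) (D.bc A A' ψ M.L M.isInvertible)]
    refine exists_congr fun φ => ?_
    rw [map_mkPt, map_ptOf_eq_iff D S hZ2]
  cover K _ _ η := by
    obtain ⟨M, hM, rfl⟩ := exists_mkPt η
    obtain ⟨i, φ, h⟩ := S.charts.cover K (D.sec K M.L) (sec_isPic0 D hZ2 M hM)
    exact ⟨i, φ, (map_ptOf_eq_iff D S hZ2 φ _ _ M hM).2 h⟩

theorem nonempty_charts (hZ2 : Z2Spec G D) : Nonempty S.charts.ι := by
  obtain ⟨i, -⟩ := (affAtlas D S hZ2).cover k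
    (mkPt (RigidifiedLineBundle.unit (sp k k)) (fibrewiseAlgEquivZero_unit (sp k k)))
  exact ⟨i⟩

end Atlas

section Universal

variable {J : Over (Spec (CommRingCat.of k))} (ξJ : (pic0 c ε).obj (op J))
  {A : Type u} [CommRing A] [Algebra k A]

/-- a representative of the pull-back of the universal class along a point -/
noncomputable def repOf (g : aff k A ⟶ J) : RigidifiedLineBundle c ε (sp k A) :=
  (exists_mkPt ((pic0 c ε).map g.op ξJ)).choose

theorem repOf_mem (g : aff k A ⟶ J) : FibrewiseAlgEquivZero (repOf ξJ g) :=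
  (exists_mkPt ((pic0 c ε).map g.op ξJ)).choose_spec.choose

theorem repOf_spec (g : aff k A ⟶ J) :
    (pic0 c ε).map g.op ξJ = mkPt (repOf ξJ g) (repOf_mem ξJ g) :=
  (exists_mkPt ((pic0 c ε).map g.op ξJ)).choose_spec.choose_spec

variable {G : GeomCharts c ε} (D : Dictionary G) (S : AlgSpec G.𝔠)

/-- The functor of points of a representing object, in terms of triples. -/
noncomputable def pointsSpec (hZ2 : Z2Spec G D)
    (huniv : ∀ (T : Over (Spec (CommRingCat.of k))) (η : (pic0 c ε).obj (op T)),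
      ∃! g : T ⟶ J, (pic0 c ε).map g.op ξJ = η) : PointsSpec G.𝔠 J where
  cl A _ _ g := D.sec A (repOf ξJ g).L
  pic0 A _ _ g := sec_isPic0 D hZ2 _ (repOf_mem ξJ g)
  inj A _ _ g g' h := by
    have h1 := (D.iso_iff A _ _ (repOf ξJ g).isInvertible (repOf ξJ g').isInvertible).2 h
    have h2 : (pic0 c ε).map g.op ξJ = (pic0 c ε).map g'.op ξJ := by
      rw [repOf_spec, repOf_spec ξJ g', mkPt_eq_iff]
      exact h1
    exact (huniv _ _).unique h2 rfl
  surj A _ _ T hT := by
    obtain ⟨g, hg, -⟩ := huniv (aff k A) (ptOf D hZ2 T hT)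
    refine ⟨g, ?_⟩
    simp only [] at hg
    rw [repOf_spec, ptOf, mkPt_eq_iff] at hg
    obtain ⟨e⟩ := (D.iso_iff A _ _ (repOf ξJ g).isInvertible
      (bundleOf D hZ2 T hT).isInvertible).1 hg
    obtain ⟨e'⟩ := bundleOf_iso D hZ2 T hT
    exact ⟨isoTrans e e'⟩
  nat A A' _ _ _ _ φ g := by
    have h : (pic0 c ε).map (affMap φ ≫ g).op ξJ =
        (pic0 c ε).map (affMap φ).op ((pic0 c ε).map g.op ξJ) := by
      rw [op_comp, Functor.map_comp]
      rfl
    rw [repOf_spec, repOf_spec ξJ g] at h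
    exact (map_mkPt_eq_iff D S φ _ _ _ _).1 h.symm

end Universal

/-- Nodes R1 + R2 (formal representability from an affine atlas) as a hypothesis on a functor. -/
def RepSpec (F : (Over (Spec (CommRingCat.of k)))ᵒᵖ ⥤ Type (u + 1)) : Prop :=
  ∀ 𝒜 : AffAtlas F, Nonempty 𝒜.ι →
    ∃ (J : Over (Spec (CommRingCat.of k))) (ξJ : F.obj (op J)),
      (∀ (T : Over (Spec (CommRingCat.of k))) (η : F.obj (op T)),
        ∃! g : T ⟶ J, F.map g.op ξJ = η) ∧
      ∃ j : ∀ i, aff k (𝒜.R i) ⟶ J, (∀ i, IsOpenImmersion (j i).left) ∧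
        (∀ z : J.left, ∃ i, z ∈ Set.range (j i).left.base)

/-- `exists_affAtlas`, with Z2 as a hypothesis. -/
theorem exists_affAtlas_of (G : GeomCharts c ε) (D : Dictionary G) (S : AlgSpec G.𝔠)
    (hZ2 : Z2Spec G D) :
    ∃ 𝒜 : AffAtlas (picFunctor (algEquivZeroCut c ε)), ∃ e : 𝒜.ι ≃ S.charts.ι,
      ∀ i : 𝒜.ι, Nonempty (𝒜.R i ≃ₐ[k] S.charts.R (e i)) :=
  ⟨affAtlas D S hZ2, Equiv.refl _, fun _ => ⟨AlgEquiv.refl⟩⟩

/-- `exists_jacobian`, with Z2 and R1 + R2 as hypotheses. -/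
theorem exists_jacobian_of (G : GeomCharts c ε) (D : Dictionary G) (S : AlgSpec G.𝔠)
    (hZ2 : Z2Spec G D) (hrep : RepSpec (picFunctor (algEquivZeroCut c ε))) :
    ∃ (J : Over (Spec (CommRingCat.of k)))
      (ξJ : (picFunctor (algEquivZeroCut c ε)).obj (op J)),
      (∀ (T : Over (Spec (CommRingCat.of k))) (η : (picFunctor (algEquivZeroCut c ε)).obj (op T)),
        ∃! g : T ⟶ J, (picFunctor (algEquivZeroCut c ε)).map g.op ξJ = η) ∧
      Nonempty (PointsSpec G.𝔠 J) ∧
      ∃ j : ∀ i : S.charts.ι, aff k (S.charts.R i) ⟶ J, (∀ i, IsOpenImmersion (j i).left) ∧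
        (∀ z : J.left, ∃ i, z ∈ Set.range (j i).left.base) := by
  obtain ⟨J, ξJ, huniv, j, hj, hcov⟩ := hrep (affAtlas D S hZ2) (nonempty_charts D S hZ2)
  exact ⟨J, ξJ, huniv, ⟨pointsSpec ξJ D S hZ2 huniv⟩, j, hj, hcov⟩

end Fermat.Agent.S25.Z3
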