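/-
S25 / block Z3: existence of the representing object with its atlas and its functor of points;
only node Z2 (`Z3.Z2Spec`) is left as a hypothesis.   Owner: helper280.
-/
import Fermat.Agent.S25.Rep
import Fermat.Agent.S25.RepAff
import Fermat.Agent.S25.Z.Descent
import Fermat.Agent.S25.Z.JacobianCore

set_option autoImplicit false

universe u

open CategoryTheory CategoryTheory.Limits AlgebraicGeometry AlgebraicGeometry.RelPicard
  NeronModelInfra GoodReductionJacobian Opposite
open scoped TensorProduct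

namespace Fermat.Agent.S25.Z3

open _root_.Fermat.Agent.S25.Rep _root_.Fermat.Agent.S25.Triple

variable {k : Type u} [Field k] {C : Scheme.{u}} {c : C ⟶ Spec (CommRingCat.of k)}
  {ε : SchemeHomOver (𝟙 (Spec (CommRingCat.of k))) c}

/-- Nodes R1 + R2: formal representability from an affine atlas. -/
theorem repSpec_of_isSep_of_hasGlue2 (F : (Over (Spec (CommRingCat.of k)))ᵒᵖ ⥤ Type (u + 1))
    (hsep : IsSep F) (hglue : HasGlue2 F) : RepSpec F := by
  intro 𝒜 hne
  obtain ⟨J, ξJ, huniv, j, hj, hcov, -⟩ := representable F hsep hglue (𝒜.toAtlas hsep) hne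
  exact ⟨J, ξJ, huniv, j, hj, hcov⟩

theorem repSpec_picFunctor (hsep : SepSpec c ε) (hglue : Glue2Spec c ε) :
    RepSpec (picFunctor (algEquivZeroCut c ε)) :=
  repSpec_of_isSep_of_hasGlue2 _ (isSep_picFunctor _ hsep) (hasGlue2_picFunctor hglue)

/-- `exists_jacobian`, with only Z2 as a hypothesis. -/
theorem exists_jacobian_of_Z2 (G : GeomCharts c ε) (D : Dictionary G) (S : AlgSpec G.𝔠)
    (hZ2 : Z2Spec G D) (hsep : SepSpec c ε) (hglue : Glue2Spec c ε) :
    ∃ (J : Over (Spec (CommRingCat.of k)))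
      (ξJ : (picFunctor (algEquivZeroCut c ε)).obj (op J)),
      (∀ (T : Over (Spec (CommRingCat.of k))) (η : (picFunctor (algEquivZeroCut c ε)).obj (op T)),
        ∃! g : T ⟶ J, (picFunctor (algEquivZeroCut c ε)).map g.op ξJ = η) ∧
      Nonempty (PointsSpec G.𝔠 J) ∧
      ∃ j : ∀ i : S.charts.ι, aff k (S.charts.R i) ⟶ J, (∀ i, IsOpenImmersion (j i).left) ∧
        (∀ z : J.left, ∃ i, z ∈ Set.range (j i).left.base) :=
  exists_jacobian_of G D S hZ2 (repSpec_picFunctor hsep hglue)

end Fermat.Agent.S25.Z3
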