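/-
S25 / block Z3: the affine atlas of the Picard functor and the representing object with its atlas
and its functor of points (statements verbatim from the assembly skeleton).   Owner: helper280.
-/
import Fermat.Agent.S25.Z.AlgEquiv
import Fermat.Agent.S25.Z.JacobianRep

set_option autoImplicit false

universe u

open CategoryTheory CategoryTheory.Limits AlgebraicGeometry AlgebraicGeometry.RelPicard
  NeronModelInfra GoodReductionJacobian Opposite
open scoped TensorProduct

namespace Fermat.Agent.S25

open _root_.Fermat.Agent.S25.Rep Triple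

variable {k : Type u} [Field k] {C : Scheme.{u}} {c : C ⟶ Spec (CommRingCat.of k)}
  {ε : SchemeHomOver (𝟙 (Spec (CommRingCat.of k))) c}

/-- The affine atlas of the Picard functor obtained from the algebraic charts. -/
theorem exists_affAtlas [IsAlgClosed k] (G : GeomCharts c ε) (D : Dictionary G) (S : AlgSpec G.𝔠) :
    ∃ 𝒜 : AffAtlas (picFunctor (algEquivZeroCut c ε)), ∃ e : 𝒜.ι ≃ S.charts.ι,
      ∀ i : 𝒜.ι, Nonempty (𝒜.R i ≃ₐ[k] S.charts.R (e i)) :=
  Z3.exists_affAtlas_of G D S (fun A _ _ M => fibrewiseAlgEquivZero_iff_deg0 G D S A M)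

/-- Existence of the representing object with its atlas and its functor of points. -/
theorem exists_jacobian [IsAlgClosed k] (G : GeomCharts c ε) (D : Dictionary G) (S : AlgSpec G.𝔠)
    (hsep : SepSpec c ε) (hglue : Glue2Spec c ε) :
    ∃ (J : Over (Spec (CommRingCat.of k)))
      (ξJ : (picFunctor (algEquivZeroCut c ε)).obj (op J)),
      (∀ (T : Over (Spec (CommRingCat.of k))) (η : (picFunctor (algEquivZeroCut c ε)).obj (op T)),
        ∃! g : T ⟶ J, (picFunctor (algEquivZeroCut c ε)).map g.op ξJ = η) ∧
      Nonempty (PointsSpec G.𝔠 J) ∧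
      ∃ j : ∀ i : S.charts.ι, aff k (S.charts.R i) ⟶ J, (∀ i, IsOpenImmersion (j i).left) ∧
        (∀ z : J.left, ∃ i, z ∈ Set.range (j i).left.base) :=
  Z3.exists_jacobian_of_Z2 G D S (fun A _ _ M => fibrewiseAlgEquivZero_iff_deg0 G D S A M)
    hsep hglue

end Fermat.Agent.S25
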