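/-
S25 / block Z4: packaging a universal element of `picFunctor P` into the frozen structure
`RepresentsRelSubPic`.  Owner: helper162.
-/
import Fermat.Agent.S25.PicFunctor

set_option autoImplicit false

universe u

open CategoryTheory CategoryTheory.Limits AlgebraicGeometry AlgebraicGeometry.RelPicard
  NeronModelInfra GoodReductionJacobian Opposite

namespace Fermat.Agent.S25

variable {k : Type u} [Field k] {C : Scheme.{u}} {c : C ⟶ Spec (CommRingCat.of k)}
  {ε : SchemeHomOver (𝟙 (Spec (CommRingCat.of k))) c}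

namespace Package

/-- value of `picFunctor P` on a morphism -/
lemma picFunctor_map_val (P : SubPicCondition c ε) {X X' : Over (Spec (CommRingCat.of k))}
    (g : X' ⟶ X) (x : (picFunctor P).obj (op X)) :
    ((picFunctor P).map g.op x).1 =
      RigidifiedLineBundle.classesMap (c := c) (ε := ε)
        (⟨g.left, Over.w g⟩ : SchemeHomOver X'.hom X.hom) x.1 := rfl

/-- the pull-back of a class, on representatives: equality of classes is an isomorphism of the
underlying line bundles -/
lemma picFunctor_map_eq_iff (P : SubPicCondition c ε) {X X' : Over (Spec (CommRingCat.of k))}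
    (g : X' ⟶ X) (x : (picFunctor P).obj (op X)) (M₀ : RigidifiedLineBundle c ε X.hom)
    (hM₀ : (Quotient.mk _ M₀ : RigidifiedLineBundle.Classes c ε X.hom) = x.1)
    (M : RigidifiedLineBundle c ε X'.hom) (hM : P.P X'.hom M) :
    (picFunctor P).map g.op x =
        (⟨Quotient.mk _ M, hM⟩ : (picFunctor P).obj (op X')) ↔
      Nonempty ((M₀.pullbackAlong
        (⟨g.left, Over.w g⟩ : SchemeHomOver X'.hom X.hom)).L ≅ M.L) := by
  have hval : ((picFunctor P).map g.op x).1 =
      (Quotient.mk _ (M₀.pullbackAlong
        (⟨g.left, Over.w g⟩ : SchemeHomOver X'.hom X.hom)) :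
          RigidifiedLineBundle.Classes c ε X'.hom) := by
    rw [picFunctor_map_val, ← hM₀]
    rfl
  constructor
  · intro h
    have h1 := congrArg Subtype.val h
    exact Quotient.exact (hval.symm.trans h1)
  · intro h
    exact Subtype.ext (hval.trans (Quotient.sound h))

end Package

open Package in
theorem exists_represents_of_universal (P : SubPicCondition c ε)
    (J : Over (Spec (CommRingCat.of k))) (ξJ : (picFunctor P).obj (op J))
    (huniv : ∀ (T : Over (Spec (CommRingCat.of k))) (η : (picFunctor P).obj (op T)),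
        ∃! g : T ⟶ J, (picFunctor P).map g.op ξJ = η) :
    ∃ z : Spec (CommRingCat.of k) ⟶ J.left, ∃ hz : z ≫ J.hom = 𝟙 _,
      Nonempty (RepresentsRelSubPic c ε P
        { P := J.left, toBase := J.hom, zeroSection := z, zeroSection_toBase := hz }) := by
  -- a representative of the universal class
  obtain ⟨M₀, hM₀⟩ : ∃ M₀ : RigidifiedLineBundle c ε J.hom,
      (Quotient.mk _ M₀ : RigidifiedLineBundle.Classes c ε J.hom) = ξJ.1 :=
    ⟨Quotient.out ξJ.1, Quotient.out_eq _⟩
  have hmem : P.P J.hom M₀ := by
    have h := ξJ.2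
    rw [← hM₀] at h
    exact h
  -- the universal property on representatives
  have key : ∀ {T : Scheme.{u}} (t : T ⟶ Spec (CommRingCat.of k))
      (M : RigidifiedLineBundle c ε t), P.P t M →
      ∃! g : SchemeHomOver t J.hom, Nonempty ((M₀.pullbackAlong g).L ≅ M.L) := by
    intro T t M hM
    obtain ⟨g, hg, huniq⟩ := huniv (Over.mk t) ⟨Quotient.mk _ M, hM⟩
    refine ⟨⟨g.left, Over.w g⟩, ?_, ?_⟩
    · exact (picFunctor_map_eq_iff P g ξJ M₀ hM₀ M hM).1 hg
    · intro g' hg'
      have h := huniq (Over.homMk g'.1 g'.2 : Over.mk t ⟶ J)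
        ((picFunctor_map_eq_iff P (Over.homMk g'.1 g'.2 : Over.mk t ⟶ J) ξJ M₀ hM₀ M hM).2 hg')
      apply Subtype.ext
      rw [← h]
      rfl
  -- the zero section
  obtain ⟨z, hz, -⟩ := key (𝟙 (Spec (CommRingCat.of k)))
    (RigidifiedLineBundle.unit (c := c) (ε := ε) (𝟙 _)) (P.unit_mem _)
  exact ⟨z.1, z.2, ⟨{
    poincare := M₀
    poincare_mem := hmem
    univ := fun t M hM => key t M hM
    zero := hz }⟩⟩

end Fermat.Agent.S25
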