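/-
S25 / block Z6: the Jacobian is separated and proper (valuative criteria).  Owner: helper164.
-/
import Fermat.Agent.S25.Z.PointsSpec

set_option autoImplicit false

universe u

open CategoryTheory CategoryTheory.Limits AlgebraicGeometry Opposite

namespace Fermat.Agent.S25

open _root_.Fermat.Agent.S25.Rep Triple

variable {k : Type u} [Field k]

namespace ZProper

/-! ### base change is insensitive to isomorphisms of the source -/

section BC

variable {𝔠 : CurveCharts k} {A A' : Type u} [CommRing A] [Algebra k A] [CommRing A']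
  [Algebra k A']

/-- auxiliary: transport of the universal property along a linear equivalence of the source -/
theorem existsUnique_of_equiv {R R' : Type u} [CommRing R] [CommRing R'] (f : R →+* R')
    {M M' N : Type u} [AddCommGroup M] [Module R M] [AddCommGroup M'] [Module R M']
    [AddCommGroup N] [Module R' N] (e : M' ≃ₗ[R] M) (β : M →ₛₗ[f] N)
    (h : ∀ (Q : Type u) [AddCommGroup Q] [Module R' Q] (g : M →ₛₗ[f] Q),
      ∃! l : N →ₗ[R'] Q, ∀ n, l (β n) = g n)
    (Q : Type u) [AddCommGroup Q] [Module R' Q] (g : M' →ₛₗ[f] Q) :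
    ∃! l : N →ₗ[R'] Q, ∀ n, l ((β.comp e.toLinearMap) n) = g n := by
  obtain ⟨l, hl, hu⟩ := h Q (g.comp e.symm.toLinearMap)
  refine ⟨l, fun n => ?_, fun l' hl' => hu l' fun n => ?_⟩
  · have := hl (e n)
    simpa using this
  · have := hl' (e.symm n)
    simpa using this

/-- base change only depends on the isomorphism class of the source -/
noncomputable def baseChangeOfIso {φ : A →ₐ[k] A'} {T T₀ : Triple 𝔠 A} {T' : Triple 𝔠 A'}
    (e : Iso T₀ T) (b : BaseChange φ T T') : BaseChange φ T₀ T' where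
  β₁ := b.β₁.comp e.e₁.toLinearMap
  β₂ := b.β₂.comp e.e₂.toLinearMap
  β₁₂ := b.β₁₂.comp e.e₁₂.toLinearMap
  comm₁ n := by
    have h1 := e.comm₁ n
    have h2 := b.comm₁ (e.e₁ n)
    simp only [LinearMap.comp_apply, LinearEquiv.coe_coe]
    rw [h1, h2]
  comm₂ n := by
    have h1 := e.comm₂ n
    have h2 := b.comm₂ (e.e₂ n)
    simp only [LinearMap.comp_apply, LinearEquiv.coe_coe]
    rw [h1, h2]
  isBC₁ := existsUnique_of_equiv _ e.e₁ b.β₁ b.isBC₁
  isBC₂ := existsUnique_of_equiv _ e.e₂ b.β₂ b.isBC₂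
  isBC₁₂ := existsUnique_of_equiv _ e.e₁₂ b.β₁₂ b.isBC₁₂

end BC

/-! ### finiteness properties of `J` -/

section Fin

variable {𝔠 : CurveCharts k} (S : AlgSpec 𝔠) {J : Over (Spec (CommRingCat.of k))}
  (j : ∀ i : S.charts.ι, aff k (S.charts.R i) ⟶ J) (hj : ∀ i, IsOpenImmersion (j i).left)
  (hcov : ∀ z : J.left, ∃ i, z ∈ Set.range (j i).left.base)

theorem locallyOfFiniteType_aff (R : Type u) [CommRing R] [Algebra k R]
    (h : Algebra.FiniteType k R) :
    LocallyOfFiniteType (Spec.map (CommRingCat.ofHom (algebraMap k R))) := by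
  rw [HasRingHomProperty.Spec_iff (P := @LocallyOfFiniteType)]
  exact RingHom.finiteType_algebraMap.mpr h

include hj hcov in
theorem locallyOfFiniteType : LocallyOfFiniteType J.hom := by
  let 𝒰 : J.left.OpenCover := Scheme.Cover.mkOfCovers S.charts.ι
    (fun i => (aff k (S.charts.R i)).left) (fun i => (j i).left)
    (fun z => by obtain ⟨i, y, hy⟩ := hcov z; exact ⟨i, y, hy⟩) hj
  refine IsZariskiLocalAtSource.of_openCover 𝒰 fun (i : S.charts.ι) => ?_
  have h : (j i).left ≫ J.hom = Spec.map (CommRingCat.ofHom (algebraMap k (S.charts.R i))) :=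
    Over.w (j i)
  change LocallyOfFiniteType ((j i).left ≫ J.hom)
  rw [h]
  exact locallyOfFiniteType_aff _ (S.charts.ft i)

include hcov in
theorem compactSpace : CompactSpace J.left := by
  have := S.charts.fin
  constructor
  have h : (Set.univ : Set J.left) = ⋃ i, Set.range (j i).left.base := by
    ext z
    simpa using hcov z
  rw [h]
  refine isCompact_iUnion fun i => ?_
  have : CompactSpace (aff k (S.charts.R i)).left :=
    inferInstanceAs (CompactSpace (Spec (CommRingCat.of (S.charts.R i))))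
  exact isCompact_range (j i).left.continuous

include hj hcov in
theorem quasiSeparated : QuasiSeparated J.hom := by
  have := locallyOfFiniteType S j hj hcov
  have : IsLocallyNoetherian J.left := LocallyOfFiniteType.isLocallyNoetherian J.hom
  exact (quasiSeparated_iff_quasiSeparatedSpace J.hom).mpr inferInstance

include hcov in
theorem quasiCompact : QuasiCompact J.hom := by
  have := compactSpace S j hcov
  exact (quasiCompact_iff_compactSpace J.hom).mpr inferInstance

end Fin

/-! ### the valuative criteria, for points over `Spec k` -/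

section Val

variable {𝔠 : CurveCharts k} (S : AlgSpec 𝔠) {J : Over (Spec (CommRingCat.of k))}
  (pts : PointsSpec 𝔠 J)

include S pts in
theorem unique_aux (V K : Type u) [CommRing V] [IsDomain V] [ValuationRing V] [Field K]
    [Algebra k V] [Algebra k K] [Algebra V K] [IsScalarTower k V K] [IsFractionRing V K]
    (g g' : aff k V ⟶ J)
    (h : affMap (IsScalarTower.toAlgHom k V K) ≫ g =
      affMap (IsScalarTower.toAlgHom k V K) ≫ g') : g = g' := by
  apply pts.inj
  have h1 := pts.nat V K (IsScalarTower.toAlgHom k V K) g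
  have h2 := pts.nat V K (IsScalarTower.toAlgHom k V K) g'
  rw [← h] at h2
  exact S.val_unique V K _ _ _ (pts.pic0 V g) (pts.pic0 V g') h1 h2

include S pts in
theorem exists_aux (V K : Type u) [CommRing V] [IsDomain V] [ValuationRing V] [Field K]
    [Algebra k V] [Algebra k K] [Algebra V K] [IsScalarTower k V K] [IsFractionRing V K]
    (gK : aff k K ⟶ J) :
    ∃ g : aff k V ⟶ J, affMap (IsScalarTower.toAlgHom k V K) ≫ g = gK := by
  obtain ⟨T, hT, ⟨b⟩⟩ := S.val_exists V K (pts.cl K gK) (pts.pic0 K gK)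
  obtain ⟨g, ⟨e⟩⟩ := pts.surj V T hT
  refine ⟨g, pts.inj K _ _ ?_⟩
  exact S.bc_unique V K _ (pts.cl V g) _ _ (pts.nat V K _ g) ⟨baseChangeOfIso e b⟩

/-- A valuative square over `J ⟶ Spec k` makes everything a `k`-algebra. -/
theorem exists_algebra (Sq : ValuativeCommSq J.hom) :
    ∃ (_ : Algebra k Sq.R) (_ : Algebra k Sq.K) (_ : IsScalarTower k Sq.R Sq.K),
      Spec.map (CommRingCat.ofHom (algebraMap k Sq.R)) = Sq.i₂ := by
  let ρ : CommRingCat.of k ⟶ CommRingCat.of Sq.R := Spec.preimage Sq.i₂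
  have hρ : Spec.map ρ = Sq.i₂ := Spec.map_preimage _
  let a1 : Algebra k Sq.R := ρ.hom.toAlgebra
  let a2 : Algebra k Sq.K := ((algebraMap Sq.R Sq.K).comp ρ.hom).toAlgebra
  exact ⟨a1, a2, IsScalarTower.of_algebraMap_eq' rfl, hρ⟩

include S pts in
theorem uniqueness : ValuativeCriterion.Uniqueness J.hom := by
  intro Sq
  obtain ⟨_, _, _, hi₂⟩ := exists_algebra Sq
  constructor
  rintro ⟨l₁, hl₁, hl₁'⟩ ⟨l₂, hl₂, hl₂'⟩
  ext : 1
  dsimp at *
  let g₁ : aff k Sq.R ⟶ J := Over.homMk l₁ (by dsimp; rw [hl₁', hi₂])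
  let g₂ : aff k Sq.R ⟶ J := Over.homMk l₂ (by dsimp; rw [hl₂', hi₂])
  have h : g₁ = g₂ := by
    apply unique_aux S pts Sq.R Sq.K
    apply Over.OverMorphism.ext
    change Spec.map (CommRingCat.ofHom (algebraMap Sq.R Sq.K)) ≫ l₁ =
      Spec.map (CommRingCat.ofHom (algebraMap Sq.R Sq.K)) ≫ l₂
    rw [hl₁, hl₂]
  exact congrArg (fun g => g.left) h

include S pts in
theorem existence : ValuativeCriterion.Existence J.hom := by
  intro Sq
  obtain ⟨_, _, _, hi₂⟩ := exists_algebra Sq
  let gK : aff k Sq.K ⟶ J := Over.homMk Sq.i₁ (by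
    dsimp
    rw [Sq.commSq.w, ← hi₂, ← Spec.map_comp, ← CommRingCat.ofHom_comp,
      ← IsScalarTower.algebraMap_eq])
  obtain ⟨g, hg⟩ := exists_aux S pts Sq.R Sq.K gK
  refine ⟨⟨⟨g.left, ?_, ?_⟩⟩⟩
  · exact congrArg (fun g => g.left) hg
  · rw [← hi₂]
    exact Over.w g

end Val

end ZProper

section Properties

variable {𝔠 : CurveCharts k} (S : AlgSpec 𝔠) {J : Over (Spec (CommRingCat.of k))}
  (pts : PointsSpec 𝔠 J)
  (j : ∀ i : S.charts.ι, aff k (S.charts.R i) ⟶ J) (hj : ∀ i, IsOpenImmersion (j i).left)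
  (hcov : ∀ z : J.left, ∃ i, z ∈ Set.range (j i).left.base)

include pts hj hcov in
theorem isSeparated_of_spec : IsSeparated J.hom := by
  have := ZProper.quasiSeparated S j hj hcov
  exact IsSeparated.of_valuativeCriterion J.hom (ZProper.uniqueness S pts)

include pts hj hcov in
theorem isProper_of_spec : IsProper J.hom := by
  have := ZProper.quasiSeparated S j hj hcov
  have := ZProper.quasiCompact S j hcov
  have := ZProper.locallyOfFiniteType S j hj hcov
  exact IsProper.of_valuativeCriterion J.hom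
    (ValuativeCriterion.iff.mpr ⟨ZProper.existence S pts, ZProper.uniqueness S pts⟩)

end Properties

end Fermat.Agent.S25
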