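/-
S25 / block Z, task Z5: smoothness of the representing object.   Owner: helper82.
-/
import Fermat.Agent.S25.Z.PointsSpec

set_option autoImplicit false
set_option linter.style.haveILetI false

universe u

open CategoryTheory CategoryTheory.Limits AlgebraicGeometry Opposite
open scoped TensorProduct

namespace Fermat.Agent.S25

open _root_.Fermat.Agent.S25.Rep Triple

namespace ZSmooth

section Algebra

variable {k : Type u} [Field k] {𝔠 : CurveCharts k}
  {A A' : Type u} [CommRing A] [Algebra k A] [CommRing A'] [Algebra k A']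

/-- base change is stable under isomorphism of the source -/
theorem isBC_of_iso {φ : A →ₐ[k] A'} {T₁ T₂ : Triple 𝔠 A} {X : Triple 𝔠 A'}
    (e : Iso T₁ T₂) (hb : IsBC φ T₁ X) : IsBC φ T₂ X := by
  obtain ⟨b⟩ := hb
  refine ⟨{
    β₁ := b.β₁.comp (e.e₁.symm : T₂.N₁ →ₗ[𝔠.R₁ A] T₁.N₁)
    β₂ := b.β₂.comp (e.e₂.symm : T₂.N₂ →ₗ[𝔠.R₂ A] T₁.N₂)
    β₁₂ := b.β₁₂.comp (e.e₁₂.symm : T₂.N₁₂ →ₗ[𝔠.R₁₂ A] T₁.N₁₂)
    comm₁ := ?_
    comm₂ := ?_
    isBC₁ := ?_
    isBC₂ := ?_
    isBC₁₂ := ?_ }⟩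
  · intro n
    have h := e.comm₁ (e.e₁.symm n)
    rw [LinearEquiv.apply_symm_apply] at h
    have h' : e.e₁₂.symm (T₂.ρ₁ n) = T₁.ρ₁ (e.e₁.symm n) := by
      rw [← h, LinearEquiv.symm_apply_apply]
    simp only [LinearMap.comp_apply, LinearEquiv.coe_coe]
    rw [h', b.comm₁]
  · intro n
    have h := e.comm₂ (e.e₂.symm n)
    rw [LinearEquiv.apply_symm_apply] at h
    have h' : e.e₁₂.symm (T₂.ρ₂ n) = T₁.ρ₂ (e.e₂.symm n) := by
      rw [← h, LinearEquiv.symm_apply_apply]
    simp only [LinearMap.comp_apply, LinearEquiv.coe_coe]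
    rw [h', b.comm₂]
  · intro Q _ _ f
    obtain ⟨g, hg, hu⟩ := b.isBC₁ Q (f.comp (e.e₁ : T₁.N₁ →ₗ[𝔠.R₁ A] T₂.N₁))
    refine ⟨g, fun n => ?_, fun g' hg' => hu g' fun n => ?_⟩
    · change g (b.β₁ (e.e₁.symm n)) = f n
      rw [hg]
      change f (e.e₁ (e.e₁.symm n)) = f n
      rw [LinearEquiv.apply_symm_apply]
    · have := hg' (e.e₁ n)
      change g' (b.β₁ (e.e₁.symm (e.e₁ n))) = f (e.e₁ n) at this
      rw [LinearEquiv.symm_apply_apply] at this
      exact this
  · intro Q _ _ f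
    obtain ⟨g, hg, hu⟩ := b.isBC₂ Q (f.comp (e.e₂ : T₁.N₂ →ₗ[𝔠.R₂ A] T₂.N₂))
    refine ⟨g, fun n => ?_, fun g' hg' => hu g' fun n => ?_⟩
    · change g (b.β₂ (e.e₂.symm n)) = f n
      rw [hg]
      change f (e.e₂ (e.e₂.symm n)) = f n
      rw [LinearEquiv.apply_symm_apply]
    · have := hg' (e.e₂ n)
      change g' (b.β₂ (e.e₂.symm (e.e₂ n))) = f (e.e₂ n) at this
      rw [LinearEquiv.symm_apply_apply] at this
      exact this
  · intro Q _ _ f
    obtain ⟨g, hg, hu⟩ := b.isBC₁₂ Q (f.comp (e.e₁₂ : T₁.N₁₂ →ₗ[𝔠.R₁₂ A] T₂.N₁₂))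
    refine ⟨g, fun n => ?_, fun g' hg' => hu g' fun n => ?_⟩
    · change g (b.β₁₂ (e.e₁₂.symm n)) = f n
      rw [hg]
      change f (e.e₁₂ (e.e₁₂.symm n)) = f n
      rw [LinearEquiv.apply_symm_apply]
    · have := hg' (e.e₁₂ n)
      change g' (b.β₁₂ (e.e₁₂.symm (e.e₁₂ n))) = f (e.e₁₂ n) at this
      rw [LinearEquiv.symm_apply_apply] at this
      exact this

end Algebra

section Aff

variable {k : Type u} [Field k]
  {A A' A'' : Type u} [CommRing A] [Algebra k A] [CommRing A'] [Algebra k A']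
  [CommRing A''] [Algebra k A'']

theorem affMap_left (φ : A →ₐ[k] A') :
    (affMap φ).left = Spec.map (CommRingCat.ofHom φ.toRingHom) := rfl

theorem affMap_comp (φ : A →ₐ[k] A') (ψ : A' →ₐ[k] A'') :
    affMap (ψ.comp φ) = affMap ψ ≫ affMap φ := by
  apply Over.OverMorphism.ext
  rw [Over.comp_left, affMap_left, affMap_left, affMap_left, ← Spec.map_comp,
    ← CommRingCat.ofHom_comp]
  rfl

theorem affMap_injective : Function.Injective (affMap : (A →ₐ[k] A') → (aff k A' ⟶ aff k A)) := by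
  intro φ ψ h
  have h1 : (affMap φ).left = (affMap ψ).left := congrArg _ h
  rw [affMap_left, affMap_left] at h1
  have h2 := Spec.map_injective h1
  have h3 : φ.toRingHom = ψ.toRingHom := by
    have := congrArg CommRingCat.Hom.hom h2
    simpa using this
  exact AlgHom.ext fun a => RingHom.congr_fun h3 a

theorem exists_affMap_eq (f : aff k A' ⟶ aff k A) : ∃ φ : A →ₐ[k] A', affMap φ = f := by
  have hw := Over.w f
  set ψ : CommRingCat.of A ⟶ CommRingCat.of A' := Spec.preimage f.left with hψ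
  have hψ' : Spec.map ψ = f.left := Spec.map_preimage _
  have h1 : CommRingCat.ofHom (algebraMap k A) ≫ ψ = CommRingCat.ofHom (algebraMap k A') := by
    apply Spec.map_injective
    rw [Spec.map_comp, hψ']
    exact hw
  refine ⟨{ ψ.hom with commutes' := fun c => ?_ }, ?_⟩
  · have := congrArg (fun g => g.hom c) h1
    simpa using this
  · apply Over.OverMorphism.ext
    rw [affMap_left, ← hψ']
    rfl

end Aff

section Main

variable {k : Type u} [Field k] {𝔠 : CurveCharts k} (S : AlgSpec 𝔠)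
  {J : Over (Spec (CommRingCat.of k))} (pts : PointsSpec 𝔠 J)

include S pts in
/-- points of `J` lift along square-zero thickenings -/
theorem exists_lift_point {B : Type u} [CommRing B] [Algebra k B] (I : Ideal B) (hI : I ^ 2 = ⊥)
    (g : aff k (B ⧸ I) ⟶ J) :
    ∃ g' : aff k B ⟶ J, affMap (Ideal.Quotient.mkₐ k I) ≫ g' = g := by
  have hπ : Function.Surjective (Ideal.Quotient.mkₐ k I) := Ideal.Quotient.mkₐ_surjective k I
  have hker : (RingHom.ker (Ideal.Quotient.mkₐ k I).toRingHom) ^ 2 = ⊥ := by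
    have : RingHom.ker (Ideal.Quotient.mkₐ k I).toRingHom = I := Ideal.mk_ker
    rw [this, hI]
  obtain ⟨T', hT', hbc⟩ := S.lift (B ⧸ I) B (Ideal.Quotient.mkₐ k I) hπ hker (pts.cl _ g)
    (pts.pic0 _ g)
  obtain ⟨g', ⟨e⟩⟩ := pts.surj B T' hT'
  refine ⟨g', ?_⟩
  apply pts.inj
  have h1 := pts.nat B (B ⧸ I) (Ideal.Quotient.mkₐ k I) g'
  have h2 : IsBC (Ideal.Quotient.mkₐ k I) T' (pts.cl _ (affMap (Ideal.Quotient.mkₐ k I) ≫ g')) :=
    isBC_of_iso e h1
  exact S.bc_unique _ _ (Ideal.Quotient.mkₐ k I) T' _ _ h2 hbc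

/-- `Spec (B ⧸ I) → Spec B` is surjective for a square-zero ideal. -/
theorem affMap_mk_surjective {B : Type u} [CommRing B] [Algebra k B] (I : Ideal B)
    (hI : I ^ 2 = ⊥) (x : (aff k B).left) :
    ∃ x₀ : (aff k (B ⧸ I)).left, (affMap (Ideal.Quotient.mkₐ k I)).left.base x₀ = x := by
  have hle : I ≤ nilradical B := by
    intro a ha
    refine ⟨2, ?_⟩
    have : a ^ 2 ∈ I ^ 2 := Ideal.pow_mem_pow ha 2
    rwa [hI, Ideal.mem_bot] at this
  have hx := (PrimeSpectrum.comap_quotientMk_bijective_of_le_nilradical hle).2 x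
  obtain ⟨x₀, hx₀⟩ := hx
  exact ⟨x₀, hx₀⟩

variable (j : ∀ i : S.charts.ι, aff k (S.charts.R i) ⟶ J) (hj : ∀ i, IsOpenImmersion (j i).left)

include pts hj in
theorem formallySmooth_chart (i : S.charts.ι) : Algebra.FormallySmooth k (S.charts.R i) := by
  refine Algebra.FormallySmooth.of_comp_surjective fun B _ _ I hI φ => ?_
  haveI := hj i
  obtain ⟨g', hg'⟩ := exists_lift_point S pts I hI (affMap φ ≫ j i)
  have hrange : Set.range g'.left.base ⊆ Set.range (j i).left.base := by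
    rintro _ ⟨x, rfl⟩
    obtain ⟨x₀, rfl⟩ := affMap_mk_surjective I hI x
    have h1 : (affMap (Ideal.Quotient.mkₐ k I) ≫ g').left.base x₀ = (affMap φ ≫ j i).left.base x₀ := by
      rw [hg']
    refine ⟨(affMap φ).left.base x₀, ?_⟩
    simpa using h1.symm
  have hl : IsOpenImmersion.lift (j i).left g'.left hrange ≫ (j i).left = g'.left :=
    IsOpenImmersion.lift_fac _ _ _
  have hw : IsOpenImmersion.lift (j i).left g'.left hrange ≫ (aff k (S.charts.R i)).hom =
      (aff k B).hom := by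
    rw [← Over.w (j i), ← Category.assoc, hl, Over.w g']
  obtain ⟨φ', hφ'⟩ := exists_affMap_eq
    (Over.homMk (IsOpenImmersion.lift (j i).left g'.left hrange) hw : aff k B ⟶ aff k (S.charts.R i))
  have hφj : affMap φ' ≫ j i = g' := by
    apply Over.OverMorphism.ext
    rw [Over.comp_left, hφ']
    exact hl
  refine ⟨φ', ?_⟩
  apply affMap_injective
  rw [affMap_comp]
  apply Over.OverMorphism.ext
  rw [← cancel_mono (j i).left, ← Over.comp_left, ← Over.comp_left, Category.assoc, hφj, hg']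

include pts hj in
theorem smooth_chart (i : S.charts.ι) : Algebra.Smooth k (S.charts.R i) := by
  haveI := formallySmooth_chart S pts j hj i
  haveI := S.charts.ft i
  haveI : Algebra.FinitePresentation k (S.charts.R i) :=
    Algebra.FinitePresentation.of_finiteType.mp inferInstance
  exact ⟨inferInstance, inferInstance⟩

end Main

end ZSmooth

section Properties

variable {k : Type u} [Field k]
variable {𝔠 : CurveCharts k} (S : AlgSpec 𝔠) {J : Over (Spec (CommRingCat.of k))}
  (pts : PointsSpec 𝔠 J)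
  (j : ∀ i : S.charts.ι, aff k (S.charts.R i) ⟶ J) (hj : ∀ i, IsOpenImmersion (j i).left)
  (hcov : ∀ z : J.left, ∃ i, z ∈ Set.range (j i).left.base)

include pts hj hcov in
theorem smooth_of_spec : Smooth J.hom := by
  have hsup : (⨆ i, (haveI := hj i; (j i).left.opensRange)) = ⊤ := by
    rw [eq_top_iff]
    intro z _
    obtain ⟨i, hi⟩ := hcov z
    exact TopologicalSpace.Opens.mem_iSup.mpr ⟨i, hi⟩
  refine IsZariskiLocalAtSource.of_iSup_eq_top (P := @Smooth) _ hsup fun i => ?_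
  haveI := hj i
  rw [← IsOpenImmersion.isoOfRangeEq_inv_fac (j i).left (Scheme.Opens.ι _)
    (congr_arg TopologicalSpace.Opens.carrier (j i).left.opensRange.opensRange_ι.symm),
    Category.assoc, MorphismProperty.cancel_left_of_respectsIso (P := @Smooth), Over.w (j i)]
  change Smooth (Spec.map (CommRingCat.ofHom (algebraMap k (S.charts.R i))))
  rw [HasRingHomProperty.Spec_iff (P := @Smooth), CommRingCat.hom_ofHom, RingHom.smooth_algebraMap]
  exact ZSmooth.smooth_chart S pts j hj i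

end Properties

end Fermat.Agent.S25
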