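/-
S25 / block Z: the final assembly from the five specifications.   Owner: helper25.
-/
import Fermat.Agent.S25.Z.Jacobian
import Fermat.Agent.S25.Z.Package
import Fermat.Agent.S25.Z.Smooth
import Fermat.Agent.S25.Z.Proper
import Fermat.Agent.S25.Z.Connected

set_option autoImplicit false

universe u

open CategoryTheory CategoryTheory.Limits AlgebraicGeometry AlgebraicGeometry.RelPicard
  NeronModelInfra GoodReductionJacobian Opposite

namespace Fermat.Agent.S25

variable {k : Type u} [Field k] {C : Scheme.{u}} {c : C ⟶ Spec (CommRingCat.of k)}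
  {ε : SchemeHomOver (𝟙 (Spec (CommRingCat.of k))) c}

theorem result_of_specs [IsAlgClosed k] (G : GeomCharts c ε) (D : Dictionary G) (S : AlgSpec G.𝔠)
    (hsep : SepSpec c ε) (hglue : Glue2Spec c ε) :
    ∃ D : RelativePic0Designation k c,
      Nonempty (RepresentsRelSubPic c ε (algEquivZeroCut c ε) D) ∧
        Smooth D.toBase ∧ IsProper D.toBase ∧ GeometricallyConnected D.toBase := by
  obtain ⟨J, ξJ, huniv, ⟨pts⟩, j, hj, hcov⟩ := exists_jacobian G D S hsep hglue
  obtain ⟨z, hz, hrep⟩ := exists_represents_of_universal _ J ξJ huniv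
  exact ⟨_, hrep, smooth_of_spec S pts j hj hcov, isProper_of_spec S pts j hj hcov,
    geometricallyConnected_of_spec S pts j hj hcov⟩

end Fermat.Agent.S25
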